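import Fermat.Agent.LT.T6.H830.InjSpec

/-!
# Row LT, tower T6, leaf T6.21.2 `HcZRegC` (helper372)

OFF-MAIN.  Leaf `HcZRegC` of the cut `LT/T6/H830/InjSpec.lean` (helper830, bytes frozen, imported
verbatim): for a test function `f` on `GL₂(ℝ)` the function
`hcZ f r = ∫_ζ ∫_x f (bR ζ r x)` is continuous with compact support.

* `(ζ, r, x) ↦ bR ζ r x` is continuous into `GL₂(ℝ)` (units topology).
* On the compact support of `f` the functions `det g`, `det g⁻¹`, `g 0 0`, `g 1 1`, `g 0 1` are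
  bounded; at `g = bR ζ r x` they are `e^ζ`, `e^{-ζ}`, `e^{(ζ+r)/2}`, `e^{(ζ-r)/2}`,
  `e^{(ζ+r)/2} x`: so `|ζ|, |r|, |x| ≤ B` whenever `f (bR ζ r x) ≠ 0`.
* Both integrals are integrals over `[-B, B]`; continuity of parametric integrals over a compact
  set (`continuous_parametric_integral_of_continuous`), twice.
-/

set_option autoImplicit false

open scoped Matrix
open MeasureTheory

noncomputable section

namespace Fermat.Agent.LT.T6.H372

open Fermat.Agent.LT.T6 Fermat.Agent.LT.T6.H830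

/-- A map into `GL₂(ℝ)` is continuous if its matrix is. -/
theorem continuous_toGLR372 {X : Type*} [TopologicalSpace X] (f : X → GL (Fin 2) ℝ)
    (hf : Continuous fun x => (f x : Matrix (Fin 2) (Fin 2) ℝ)) : Continuous f := by
  rw [Units.continuous_iff]
  refine ⟨hf, ?_⟩
  have hdet : ∀ x, (f x : Matrix (Fin 2) (Fin 2) ℝ).det ≠ 0 := fun x =>
    ((Matrix.isUnit_iff_isUnit_det _).1 (f x).isUnit).ne_zero
  have h : (fun x => (((f x)⁻¹ : GL (Fin 2) ℝ) : Matrix (Fin 2) (Fin 2) ℝ))
      = fun x => ((f x : Matrix (Fin 2) (Fin 2) ℝ).det)⁻¹ •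
          (f x : Matrix (Fin 2) (Fin 2) ℝ).adjugate := by
    funext x
    rw [Matrix.coe_units_inv, Matrix.inv_def, Ring.inverse_eq_inv']
  rw [h]
  exact (hf.matrix_det.inv₀ hdet).smul hf.matrix_adjugate

/-- `(ζ, r, x) ↦ bR ζ r x` is continuous. -/
theorem continuous_bR372 : Continuous fun p : ℝ × ℝ × ℝ => bR p.1 p.2.1 p.2.2 := by
  apply continuous_toGLR372
  simp only [coe_bR830]
  refine continuous_matrix fun i j => ?_
  fin_cases i <;> fin_cases j <;> simp <;> fun_prop

theorem det_bR372 (ζ r x : ℝ) :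
    ((bR ζ r x : GL (Fin 2) ℝ) : Matrix (Fin 2) (Fin 2) ℝ).det = Real.exp ζ := by
  rw [coe_bR830, Matrix.det_fin_two_of, mul_zero, sub_zero, ← Real.exp_add]
  congr 1
  ring

/-- The coordinates `(ζ, r, x)` are bounded on the support of a compactly supported function. -/
theorem bR_bounds372 {f : GL (Fin 2) ℝ → ℂ} (hc : HasCompactSupport f) :
    ∃ B : ℝ, ∀ ζ r x : ℝ, f (bR ζ r x) ≠ 0 → |ζ| ≤ B ∧ |r| ≤ B ∧ |x| ≤ B := by
  have hval : Continuous fun g : GL (Fin 2) ℝ => (g : Matrix (Fin 2) (Fin 2) ℝ) :=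
    Units.continuous_val
  have hinv : Continuous fun g : GL (Fin 2) ℝ =>
      ((g⁻¹ : GL (Fin 2) ℝ) : Matrix (Fin 2) (Fin 2) ℝ) :=
    Units.continuous_val.comp continuous_inv
  obtain ⟨C1, h1⟩ := hc.isCompact.exists_bound_of_continuousOn
    (f := fun g : GL (Fin 2) ℝ => (g : Matrix (Fin 2) (Fin 2) ℝ).det)
    hval.matrix_det.continuousOn
  obtain ⟨C2, h2⟩ := hc.isCompact.exists_bound_of_continuousOn
    (f := fun g : GL (Fin 2) ℝ => ((g⁻¹ : GL (Fin 2) ℝ) : Matrix (Fin 2) (Fin 2) ℝ).det)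
    hinv.matrix_det.continuousOn
  obtain ⟨C3, h3⟩ := hc.isCompact.exists_bound_of_continuousOn
    (f := fun g : GL (Fin 2) ℝ => (g : Matrix (Fin 2) (Fin 2) ℝ) 0 0)
    (hval.matrix_elem 0 0).continuousOn
  obtain ⟨C4, h4⟩ := hc.isCompact.exists_bound_of_continuousOn
    (f := fun g : GL (Fin 2) ℝ => (g : Matrix (Fin 2) (Fin 2) ℝ) 1 1)
    (hval.matrix_elem 1 1).continuousOn
  obtain ⟨C5, h5⟩ := hc.isCompact.exists_bound_of_continuousOn
    (f := fun g : GL (Fin 2) ℝ => (g : Matrix (Fin 2) (Fin 2) ℝ) 0 1)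
    (hval.matrix_elem 0 1).continuousOn
  set C : ℝ := max 1 (max C1 (max C2 (max C3 (max C4 C5)))) with hC
  have hC1 : 1 ≤ C := le_max_left _ _
  have hCpos : 0 < C := lt_of_lt_of_le one_pos hC1
  have hlog : 0 ≤ Real.log C := Real.log_nonneg hC1
  have hle1 : C1 ≤ C := le_trans (le_max_left _ _) (le_max_right _ _)
  have hle2 : C2 ≤ C :=
    le_trans (le_trans (le_max_left _ _) (le_max_right _ _)) (le_max_right _ _)
  have hle3 : C3 ≤ C :=
    le_trans (le_trans (le_trans (le_max_left _ _) (le_max_right _ _)) (le_max_right _ _))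
      (le_max_right _ _)
  have hle4 : C4 ≤ C :=
    le_trans (le_trans (le_trans (le_trans (le_max_left _ _) (le_max_right _ _))
      (le_max_right _ _)) (le_max_right _ _)) (le_max_right _ _)
  have hle5 : C5 ≤ C :=
    le_trans (le_trans (le_trans (le_trans (le_max_right _ _) (le_max_right _ _))
      (le_max_right _ _)) (le_max_right _ _)) (le_max_right _ _)
  refine ⟨3 * Real.log C + C ^ 3, fun ζ r x hne => ?_⟩
  have hmem : bR ζ r x ∈ tsupport f := subset_tsupport f hne
  -- the five bounds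
  have b1 : Real.exp ζ ≤ C := by
    have h := h1 _ hmem
    simp only [det_bR372, Real.norm_eq_abs, abs_of_pos (Real.exp_pos ζ)] at h
    exact h.trans hle1
  have b2 : Real.exp (-ζ) ≤ C := by
    have h := h2 _ hmem
    simp only [Matrix.coe_units_inv, Matrix.det_nonsing_inv, det_bR372, Ring.inverse_eq_inv',
      Real.norm_eq_abs, ← Real.exp_neg, abs_of_pos (Real.exp_pos (-ζ))] at h
    exact h.trans hle2
  have b3 : Real.exp ((ζ + r) / 2) ≤ C := by
    have h := h3 _ hmem
    simp only [coe_bR830, Matrix.of_apply, Matrix.cons_val', Matrix.cons_val_zero,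
      Real.norm_eq_abs, abs_of_pos (Real.exp_pos _)] at h
    exact h.trans hle3
  have b4 : Real.exp ((ζ - r) / 2) ≤ C := by
    have h := h4 _ hmem
    simp only [coe_bR830, Matrix.of_apply, Matrix.cons_val', Matrix.cons_val_one,
      Matrix.cons_val_fin_one, Real.norm_eq_abs, abs_of_pos (Real.exp_pos _)] at h
    exact h.trans hle4
  have b5 : Real.exp ((ζ + r) / 2) * |x| ≤ C := by
    have h := h5 _ hmem
    simp only [coe_bR830, Matrix.of_apply, Matrix.cons_val', Matrix.cons_val_zero,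
      Matrix.cons_val_one, Real.norm_eq_abs, abs_mul, abs_of_pos (Real.exp_pos _)] at h
    exact h.trans hle5
  have l1 : ζ ≤ Real.log C := (Real.le_log_iff_exp_le hCpos).mpr b1
  have l2 : -ζ ≤ Real.log C := (Real.le_log_iff_exp_le hCpos).mpr b2
  have l3 : (ζ + r) / 2 ≤ Real.log C := (Real.le_log_iff_exp_le hCpos).mpr b3
  have l4 : (ζ - r) / 2 ≤ Real.log C := (Real.le_log_iff_exp_le hCpos).mpr b4
  have hC3 : 0 ≤ C ^ 3 := by positivity
  refine ⟨abs_le.mpr ⟨by linarith, by linarith⟩, abs_le.mpr ⟨by linarith, by linarith⟩, ?_⟩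
  -- `|x| = e^{-ζ} e^{(ζ-r)/2} (e^{(ζ+r)/2} |x|) ≤ C³`
  have hx : |x| = Real.exp (-ζ) * Real.exp ((ζ - r) / 2) * (Real.exp ((ζ + r) / 2) * |x|) := by
    rw [← mul_assoc, ← Real.exp_add, ← Real.exp_add]
    have : -ζ + (ζ - r) / 2 + (ζ + r) / 2 = 0 := by ring
    rw [this, Real.exp_zero, one_mul]
  have hx2 : |x| ≤ C ^ 3 := by
    rw [hx]
    calc Real.exp (-ζ) * Real.exp ((ζ - r) / 2) * (Real.exp ((ζ + r) / 2) * |x|)
        ≤ C * C * C := by
          apply mul_le_mul (mul_le_mul b2 b4 (Real.exp_pos _).le hCpos.le) b5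
            (mul_nonneg (Real.exp_pos _).le (abs_nonneg _)) (mul_nonneg hCpos.le hCpos.le)
      _ = C ^ 3 := by ring
  linarith

/-- **Leaf T6.21.2 HCZ-REG**: `hcZ f` is continuous with compact support. -/
theorem hcZRegC372 : HcZRegC := by
  intro n _ f hf
  obtain ⟨B, hB⟩ := bR_bounds372 hf.supp
  -- the inner integral is an integral over `[-B, B]`
  have hin : ∀ ζ r : ℝ, hcR f ζ r = ∫ x in Set.Icc (-B) B, f (bR ζ r x) := by
    intro ζ r
    unfold hcR
    symm
    apply setIntegral_eq_integral_of_forall_compl_eq_zero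
    intro x hx
    by_contra h
    exact hx (abs_le.mp (hB ζ r x h).2.2)
  have hcont1 : Continuous (fun p : ℝ × ℝ => hcR f p.1 p.2) := by
    have h : (fun p : ℝ × ℝ => hcR f p.1 p.2)
        = fun p : ℝ × ℝ => ∫ x in Set.Icc (-B) B, f (bR p.1 p.2 x) :=
      funext fun p => hin p.1 p.2
    rw [h]
    refine continuous_parametric_integral_of_continuous
      (f := fun (p : ℝ × ℝ) (x : ℝ) => f (bR p.1 p.2 x)) ?_ isCompact_Icc
    have h2 : Continuous fun q : (ℝ × ℝ) × ℝ => ((q.1.1, q.1.2, q.2) : ℝ × ℝ × ℝ) := by fun_prop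
    exact hf.cont.comp (continuous_bR372.comp h2)
  -- the vanishing of the inner integral
  have hzero : ∀ ζ r : ℝ, (B < |ζ| ∨ B < |r|) → hcR f ζ r = 0 := by
    intro ζ r h
    unfold hcR
    have h0 : (fun x : ℝ => f (bR ζ r x)) = fun _ => 0 := by
      funext x
      by_contra hne
      obtain ⟨h1, h2, -⟩ := hB ζ r x hne
      rcases h with h | h
      · exact absurd h1 (not_le.mpr h)
      · exact absurd h2 (not_le.mpr h)
    rw [h0, integral_zero]
  have hout : ∀ r : ℝ, hcZ f r = ∫ ζ in Set.Icc (-B) B, hcR f ζ r := by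
    intro r
    unfold hcZ
    symm
    apply setIntegral_eq_integral_of_forall_compl_eq_zero
    intro ζ hζ
    apply hzero ζ r
    left
    by_contra h
    exact hζ (abs_le.mp (not_lt.mp h))
  refine ⟨?_, ?_⟩
  · have h : hcZ f = fun r : ℝ => ∫ ζ in Set.Icc (-B) B, hcR f ζ r := funext hout
    rw [h]
    refine continuous_parametric_integral_of_continuous
      (f := fun (r : ℝ) (ζ : ℝ) => hcR f ζ r) ?_ isCompact_Icc
    exact hcont1.comp (continuous_snd.prodMk continuous_fst)
  · refine HasCompactSupport.intro (isCompact_Icc (a := -B) (b := B)) fun r hr => ?_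
    have hr' : B < |r| := by
      by_contra h
      exact hr (abs_le.mp (not_lt.mp h))
    unfold hcZ
    have h0 : (fun ζ : ℝ => hcR f ζ r) = fun _ => 0 :=
      funext fun ζ => hzero ζ r (Or.inr hr')
    rw [h0, integral_zero]

end Fermat.Agent.LT.T6.H372

end
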