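import Fermat.Agent.LT.T6.H783.DescSpec

/-!
# Row LT, tower T6, leaf T6.18g2-P0 `ProperGlueC783` (helper372)

OFF-MAIN.  Leaf `ProperGlueC783` of the sub-spec `LT/T6/H783/DescSpec.lean` (helper783, bytes
frozen, imported verbatim):

    ProperGlueC783 : RootBoundC783 → BH90C783 → ProperC783

`φ` is supported on finitely many cosets `x₀ U'(n)`, `x₀ ∈ F`; the entries of `x₀ u` and of
`(x₀ u)⁻¹ = u⁻¹ x₀⁻¹`, `u ∈ U'(n)`, are bounded by the bound `exp A` of the entries of the
`x₀, x₀⁻¹` (`u`, `u⁻¹` are integral; ultrametric inequality).  So `φ(x⁻¹ h σ(x)) ≠ 0` gives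
`EntryBdd783 A (x⁻¹ h σ(x))`, `RootBoundC783` bounds the cocycle `x⁻¹ σ(x)` by `A'` and
`BH90C783` gives the finite set `Y`.
-/

set_option autoImplicit false

open scoped Matrix

noncomputable section

namespace Fermat.Agent.LT.T6.H372

open Fermat.Agent.LT.T6 Fermat.Agent.LT.T6.H783

/-- Every value of the valuation is bounded by some `exp A`. -/
theorem exists_le_exp372 (z : Γ₀) : ∃ A : ℤ, z ≤ WithZero.exp A := by
  by_cases hz : z = 0
  · exact ⟨0, by rw [hz]; exact zero_le⟩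
  · exact ⟨WithZero.log z, by rw [WithZero.exp_log hz]⟩

/-- The entries of an element of `U(n)` are integral. -/
theorem inU_entry_le_one372 {K : Type} [Field K] [Valued K Γ₀] {n : ℕ} {u : GL (Fin 2) K}
    (hu : InU n u) (a b : Fin 2) :
    Valued.v ((u : Matrix (Fin 2) (Fin 2) K) a b) ≤ 1 ∧
      Valued.v (((u⁻¹ : GL (Fin 2) K) : Matrix (Fin 2) (Fin 2) K) a b) ≤ 1 := by
  have hexp : WithZero.exp (-(n : ℤ)) ≤ (1 : Γ₀) := by
    rw [← WithZero.exp_zero, WithZero.exp_le_exp]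
    omega
  have hone : Valued.v ((1 : Matrix (Fin 2) (Fin 2) K) a b) ≤ (1 : Γ₀) := by
    by_cases hab : a = b
    · rw [Matrix.one_apply, if_pos hab, map_one]
    · rw [Matrix.one_apply, if_neg hab, map_zero]; exact zero_le
  obtain ⟨h1, h2⟩ := hu a b
  constructor
  · have h := Valuation.map_add_le (Valued.v) (h1.trans hexp) hone
    rwa [sub_add_cancel] at h
  · have h := Valuation.map_add_le (Valued.v) (h2.trans hexp) hone
    rwa [sub_add_cancel] at h

/-- A single element of `GL₂` has bounded entries. -/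
theorem exists_entryBdd372 {K : Type} [Field K] [Valued K Γ₀] (g : GL (Fin 2) K) :
    ∃ A : ℤ, EntryBdd783 A g := by
  choose A hA using fun p : Fin 2 × Fin 2 =>
    exists_le_exp372 (Valued.v ((g : Matrix (Fin 2) (Fin 2) K) p.1 p.2))
  choose B hB using fun p : Fin 2 × Fin 2 =>
    exists_le_exp372 (Valued.v (((g⁻¹ : GL (Fin 2) K) : Matrix (Fin 2) (Fin 2) K) p.1 p.2))
  obtain ⟨M, hM⟩ := Finset.exists_le ((Finset.univ.image A) ∪ (Finset.univ.image B))
  refine ⟨M, fun a b => ⟨(hA (a, b)).trans ?_, (hB (a, b)).trans ?_⟩⟩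
  · exact WithZero.exp_le_exp.mpr (hM _ (Finset.mem_union_left _
      (Finset.mem_image_of_mem A (Finset.mem_univ _))))
  · exact WithZero.exp_le_exp.mpr (hM _ (Finset.mem_union_right _
      (Finset.mem_image_of_mem B (Finset.mem_univ _))))

theorem entryBdd_mono372 {K : Type} [Field K] [Valued K Γ₀] {A A' : ℤ} (h : A ≤ A')
    {g : GL (Fin 2) K} (hg : EntryBdd783 A g) : EntryBdd783 A' g := fun a b =>
  ⟨(hg a b).1.trans (WithZero.exp_le_exp.mpr h), (hg a b).2.trans (WithZero.exp_le_exp.mpr h)⟩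

/-- A finite set of elements of `GL₂` has uniformly bounded entries. -/
theorem exists_entryBdd_finset372 {K : Type} [Field K] [Valued K Γ₀]
    (F : Finset (GL (Fin 2) K)) : ∃ A : ℤ, ∀ g ∈ F, EntryBdd783 A g := by
  choose A hA using fun g : GL (Fin 2) K => exists_entryBdd372 g
  obtain ⟨M, hM⟩ := Finset.exists_le (F.image A)
  exact ⟨M, fun g hg => entryBdd_mono372 (hM _ (Finset.mem_image_of_mem A hg)) (hA g)⟩

/-- The entries of `x₀ u`, `u ∈ U(n)`, are bounded by the bound of `x₀`. -/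
theorem entryBdd_mul_inU372 {K : Type} [Field K] [Valued K Γ₀] {A : ℤ} {n : ℕ}
    {x₀ u : GL (Fin 2) K} (hx : EntryBdd783 A x₀) (hu : InU n u) :
    EntryBdd783 A (x₀ * u) := by
  intro a b
  constructor
  · rw [Units.val_mul, Matrix.mul_apply]
    refine Valuation.map_sum_le _ fun c _ => ?_
    rw [map_mul]
    calc Valued.v ((x₀ : Matrix (Fin 2) (Fin 2) K) a c) *
          Valued.v ((u : Matrix (Fin 2) (Fin 2) K) c b)
        ≤ WithZero.exp A * 1 := mul_le_mul' (hx a c).1 (inU_entry_le_one372 hu c b).1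
      _ = WithZero.exp A := mul_one _
  · rw [mul_inv_rev, Units.val_mul, Matrix.mul_apply]
    refine Valuation.map_sum_le _ fun c _ => ?_
    rw [map_mul]
    calc Valued.v (((u⁻¹ : GL (Fin 2) K) : Matrix (Fin 2) (Fin 2) K) a c) *
          Valued.v (((x₀⁻¹ : GL (Fin 2) K) : Matrix (Fin 2) (Fin 2) K) c b)
        ≤ 1 * WithZero.exp A := mul_le_mul' (inU_entry_le_one372 hu a c).2 (hx c b).2
      _ = WithZero.exp A := one_mul _

/-- **Leaf T6.18g2-P0**: the glue of properness. -/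
theorem properGlueC372 : ProperGlueC783 := by
  intro hRB hBH k k' _ _ _ _ q l e i s n φ hd
  obtain ⟨N₀, hN₀⟩ := hRB k k' q l e i s hd.hk hd.hk' hd.ext hd.prime
  obtain ⟨F, hF⟩ := hd.supp
  obtain ⟨A, hA⟩ := exists_entryBdd_finset372 F
  obtain ⟨A', hA'⟩ := hN₀ A
  obtain ⟨Y, hY⟩ := hBH k k' q l e i s hd.hk hd.hk' hd.ext hd.prime n A'
  refine ⟨N₀, Y, fun h x hh hφ => ?_⟩
  obtain ⟨x₀, hx₀, u, hu, hg⟩ := hF _ hφ
  refine hY x (hA' h x hh ?_)
  rw [hg]
  exact entryBdd_mul_inU372 (hA x₀ hx₀) hu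

end Fermat.Agent.LT.T6.H372

end
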