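import Fermat.Agent.LT.T6.H558.QuatSetSpec

/-!
# Row LT, tower T6, leaf T6.18i.6b.4 `LeafQuatUnif558` (helper372)

OFF-MAIN.  Leaf `LeafQuatUnif558 = H159.QuadUnitNormC → QuatUnifC558` of the sub-spec
`LT/T6/H558/QuatSetSpec.lean` (helper558, bytes frozen, imported verbatim).
-/

set_option autoImplicit false

open scoped Matrix

noncomputable section

namespace Fermat.Agent.LT.T6.H372

open Fermat.Agent.LT.T6 Fermat.Agent.LT.T6.H783 Fermat.Agent.LT.T6.H385
open Fermat.Agent.LT.T6.H558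

section Val

variable {k : Type} [Field k] [Valued k Γ₀]

theorem val_eq_exp372 {x : k} (hx : x ≠ 0) : ∃ n : ℤ, Valued.v x = WithZero.exp n :=
  ⟨WithZero.log (Valued.v x), (WithZero.exp_log ((Valuation.ne_zero_iff _).mpr hx)).symm⟩

theorem val_zpow372 {ϖ : k} (hϖ : Valued.v ϖ = WithZero.exp (-1 : ℤ)) (m : ℤ) :
    Valued.v (ϖ ^ m) = WithZero.exp (-m) := by
  rw [map_zpow₀, hϖ, ← WithZero.exp_zsmul]
  congr 1
  simp

/-- A residue system of a local field has at least two elements. -/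
theorem not_isLocalField_one372 (h : IsLocalField k 1) : False := by
  obtain ⟨T, hcard, -, -, hT⟩ := h.residue
  obtain ⟨x, rfl⟩ := Finset.card_eq_one.mp hcard
  obtain ⟨y, hy, h0⟩ := hT 0 (by rw [map_zero]; exact zero_le)
  obtain ⟨y', hy', h1⟩ := hT 1 (by rw [map_one])
  rw [Finset.mem_singleton] at hy hy'
  rw [hy] at h0
  rw [hy'] at h1
  have h2 : Valued.v ((1 - x) - (0 - x)) < 1 := Valuation.map_sub_lt _ h1 h0
  have h3 : (1 - x) - (0 - x) = 1 := by ring
  rw [h3, map_one] at h2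
  exact lt_irrefl _ h2

end Val

section Ext

variable {k k' : Type} [Field k] [Field k'] [Valued k Γ₀] [Valued k' Γ₀]

theorem val_two_le372 : Valued.v (2 : k) ≤ 1 := by
  have h : (2 : k) = 1 + 1 := by norm_num
  rw [h]
  exact Valuation.map_add_le _ (by rw [map_one]) (by rw [map_one])

omit [Valued k Γ₀] [Valued k' Γ₀] in
/-- `σ² = 1`. -/
theorem s_s372 {i : k →+* k'} {s : k' ≃+* k'} (h : IsCyclicData k k' 2 i s) (y : k') :
    s (s y) = y := by
  have h2 := h.order y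
  rwa [pow_two] at h2

/-- Unit norm surjectivity for scalars, from `QuadUnitNormC` for the scalar matrix `u`. -/
theorem unit_norm372 (hQ : H159.QuadUnitNormC) {q : ℕ} {i : k →+* k'} {s : k' ≃+* k'}
    (hk : IsLocalField k q) (hk' : IsLocalField k' (q ^ 2)) (hext : IsLocalExt k k' 2 1 i s)
    (u : k) (hu : Valued.v u = 1) : ∃ c : k', c * s c = i u := by
  have hu0 : u ≠ 0 := by
    rintro rfl
    rw [map_zero] at hu
    exact zero_ne_one hu
  have hdet : (Matrix.diagonal fun _ : Fin 2 => u).det ≠ 0 := by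
    rw [Matrix.det_diagonal, Fin.prod_univ_two]
    exact mul_ne_zero hu0 hu0
  set U : GL (Fin 2) k := Matrix.GeneralLinearGroup.mkOfDetNeZero _ hdet with hU
  have hUc : (U : Matrix (Fin 2) (Fin 2) k) = Matrix.diagonal fun _ : Fin 2 => u := rfl
  have htr : Valued.v (U : Matrix (Fin 2) (Fin 2) k).trace ≤ 1 := by
    rw [hUc, Matrix.trace_diagonal, Fin.sum_univ_two, ← two_mul, map_mul, hu, mul_one]
    exact val_two_le372
  have hdt : Valued.v (U : Matrix (Fin 2) (Fin 2) k).det = 1 := by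
    rw [hUc, Matrix.det_diagonal, Fin.prod_univ_two, map_mul, hu, mul_one]
  obtain ⟨x, a, b, hx, hN⟩ := hQ k k' q 2 i s hk hk' hext Nat.prime_two U htr hdt
  have hM : ∀ p r : Fin 2, ((Matrix.GeneralLinearGroup.map i U : GL (Fin 2) k') :
      Matrix (Fin 2) (Fin 2) k') p r = if p = r then i u else 0 := by
    intro p r
    rw [Matrix.GeneralLinearGroup.map_apply, hUc, Matrix.diagonal_apply]
    split_ifs
    · rfl
    · exact map_zero i
  have hx' : ∀ p r : Fin 2, (x : Matrix (Fin 2) (Fin 2) k') p r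
      = if p = r then a + b * i u else 0 := by
    intro p r
    rw [hx, Matrix.add_apply, Matrix.smul_apply, Matrix.smul_apply, hM, Matrix.one_apply]
    split_ifs <;> simp
  refine ⟨a + b * i u, ?_⟩
  have hN2 : twNorm s 2 x = x * glAut s x := by
    simp [twNorm, twN]
  rw [hN2] at hN
  have h00 := congrArg (fun g : GL (Fin 2) k' => (g : Matrix (Fin 2) (Fin 2) k') 0 0) hN
  simp only [Units.val_mul, Matrix.mul_apply, Fin.sum_univ_two, glAut,
    Matrix.GeneralLinearGroup.map_apply, hx', hM] at h00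
  simpa using h00

omit [Valued k' Γ₀] in
/-- The twisted centraliser condition in the form `δ₀ σ(ρ) = ρ δ₀`. -/
theorem inTwCent_of372 {s : k' ≃+* k'} {δ₀ ρ : GL (Fin 2) k'}
    (h : δ₀ * glAut s ρ = ρ * δ₀) : InTwCent s δ₀ ρ := by
  unfold InTwCent
  rw [mul_assoc, h, ← mul_assoc, inv_mul_cancel, one_mul]

/-- The case `e = 2`: `ρ = diag (ϖ', σ ϖ')`. -/
theorem quatUnif_ram372 {q : ℕ} {i : k →+* k'} {s : k' ≃+* k'}
    (hk' : IsLocalField k' q) (hext : IsLocalExt k k' 2 2 i s) (z : k)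
    (δ₀ : GL (Fin 2) k') (hδ : IsQuatBase385 (i z) δ₀) :
    ∃ (ρ : GL (Fin 2) k') (ν : k), InTwCent s δ₀ ρ ∧
      (ρ : Matrix (Fin 2) (Fin 2) k').det = i ν ∧ Valued.v ν = WithZero.exp (-1 : ℤ) := by
  obtain ⟨ϖ, hϖ⟩ := hk'.unif
  have hϖ0 : ϖ ≠ 0 := by
    rintro rfl
    rw [map_zero] at hϖ
    exact WithZero.exp_ne_zero hϖ.symm
  have hsϖ0 : s ϖ ≠ 0 := (map_ne_zero s).mpr hϖ0
  have hss : s (s ϖ) = ϖ := s_s372 hext.cyc ϖ
  have hdet : (!![ϖ, 0; 0, s ϖ] : Matrix (Fin 2) (Fin 2) k').det ≠ 0 := by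
    rw [Matrix.det_fin_two_of]
    simpa using mul_ne_zero hϖ0 hsϖ0
  obtain ⟨ν, hν⟩ := hext.cyc.fixed (ϖ * s ϖ) (by rw [map_mul, hss, mul_comm])
  refine ⟨Matrix.GeneralLinearGroup.mkOfDetNeZero _ hdet, ν, inTwCent_of372 ?_, ?_, ?_⟩
  · apply Units.ext
    ext p r
    have hρ : ((Matrix.GeneralLinearGroup.mkOfDetNeZero _ hdet : GL (Fin 2) k') :
        Matrix (Fin 2) (Fin 2) k') = !![ϖ, 0; 0, s ϖ] := rfl
    unfold IsQuatBase385 at hδ
    simp only [Units.val_mul, Matrix.mul_apply, Fin.sum_univ_two, glAut,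
      Matrix.GeneralLinearGroup.map_apply, hρ, hδ]
    fin_cases p <;> fin_cases r <;> simp [hss, mul_comm]
  · show (!![ϖ, 0; 0, s ϖ] : Matrix (Fin 2) (Fin 2) k').det = i ν
    rw [Matrix.det_fin_two_of, hν]
    ring
  · have hν0 : ν ≠ 0 := by
      rintro rfl
      rw [map_zero] at hν
      exact mul_ne_zero hϖ0 hsϖ0 hν.symm
    obtain ⟨n, hn⟩ := val_eq_exp372 hν0
    have h1 : Valued.v (i ν) = WithZero.exp (-1 : ℤ) * WithZero.exp (-1 : ℤ) := by
      rw [hν, map_mul, hext.val_s, hϖ]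
    rw [hext.val_i, hn, pow_two, ← WithZero.exp_add, ← WithZero.exp_add, WithZero.exp_inj] at h1
    rw [hn, WithZero.exp_inj]
    omega

/-- The case `e = 1`: the order of `z` is odd and `ρ = δ₀ · ϖ^(m+1)`. -/
theorem quatUnif_unr372 (hQ : H159.QuadUnitNormC) {q : ℕ} {i : k →+* k'} {s : k' ≃+* k'}
    (hk : IsLocalField k q) (hk' : IsLocalField k' (q ^ 2)) (hext : IsLocalExt k k' 2 1 i s)
    (z : k) (hz0 : z ≠ 0) (hz : ¬ IsFieldNorm783 2 i s z)
    (δ₀ : GL (Fin 2) k') (hδ : IsQuatBase385 (i z) δ₀) :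
    ∃ (ρ : GL (Fin 2) k') (ν : k), InTwCent s δ₀ ρ ∧
      (ρ : Matrix (Fin 2) (Fin 2) k').det = i ν ∧ Valued.v ν = WithZero.exp (-1 : ℤ) := by
  obtain ⟨ϖ, hϖ⟩ := hk.unif
  have hϖ0 : ϖ ≠ 0 := by
    rintro rfl
    rw [map_zero] at hϖ
    exact WithZero.exp_ne_zero hϖ.symm
  obtain ⟨n, hn⟩ := val_eq_exp372 hz0
  have hi0 : ∀ x : k, x ≠ 0 → i x ≠ 0 := fun x hx => (map_ne_zero i).mpr hx
  rcases Int.even_or_odd' n with ⟨m, hm | hm⟩
  · -- even order: `z` would be a norm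
    exfalso
    apply hz
    set p : k := ϖ ^ m with hp
    have hp0 : p ≠ 0 := zpow_ne_zero m hϖ0
    have hvp : Valued.v p = WithZero.exp (-m) := val_zpow372 hϖ m
    have hu : Valued.v (z * p ^ 2) = 1 := by
      rw [map_mul, map_pow, hn, hvp, pow_two, ← WithZero.exp_add, ← WithZero.exp_add,
        ← WithZero.exp_zero, WithZero.exp_inj]
      omega
    obtain ⟨c, hc⟩ := unit_norm372 hQ hk hk' hext (z * p ^ 2) hu
    refine ⟨c * (i p)⁻¹, ?_⟩
    have hip0 : i p ≠ 0 := hi0 p hp0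
    rw [Finset.prod_range_succ, Finset.prod_range_succ, Finset.prod_range_zero, one_mul,
      pow_zero, pow_one]
    show i z = c * (i p)⁻¹ * s (c * (i p)⁻¹)
    rw [map_mul, map_inv₀, hext.cyc.fix_i]
    have h1 : c * (i p)⁻¹ * (s c * (i p)⁻¹) = c * s c * ((i p)⁻¹ * (i p)⁻¹) := by ring
    rw [h1, hc, map_mul, map_pow]
    field_simp
  · -- odd order
    set p : k := ϖ ^ (m + 1) with hp
    have hp0 : p ≠ 0 := zpow_ne_zero (m + 1) hϖ0
    have hvp : Valued.v p = WithZero.exp (-(m + 1)) := val_zpow372 hϖ (m + 1)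
    have hip0 : i p ≠ 0 := hi0 p hp0
    have hiz0 : i z ≠ 0 := hi0 z hz0
    have hdet : (!![0, i z * i p; i p, 0] : Matrix (Fin 2) (Fin 2) k').det ≠ 0 := by
      rw [Matrix.det_fin_two_of, zero_mul, zero_sub, neg_ne_zero]
      exact mul_ne_zero (mul_ne_zero hiz0 hip0) hip0
    refine ⟨Matrix.GeneralLinearGroup.mkOfDetNeZero _ hdet, -(z * p ^ 2),
      inTwCent_of372 ?_, ?_, ?_⟩
    · apply Units.ext
      ext a r
      have hρ : ((Matrix.GeneralLinearGroup.mkOfDetNeZero _ hdet : GL (Fin 2) k') :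
          Matrix (Fin 2) (Fin 2) k') = !![0, i z * i p; i p, 0] := rfl
      unfold IsQuatBase385 at hδ
      simp only [Units.val_mul, Matrix.mul_apply, Fin.sum_univ_two, glAut,
        Matrix.GeneralLinearGroup.map_apply, hρ, hδ]
      fin_cases a <;> fin_cases r <;> simp [hext.cyc.fix_i, mul_comm]
    · show (!![0, i z * i p; i p, 0] : Matrix (Fin 2) (Fin 2) k').det = i (-(z * p ^ 2))
      rw [Matrix.det_fin_two_of, map_neg, map_mul, map_pow]
      ring
    · rw [Valuation.map_neg, map_mul, map_pow, hn, hvp, pow_two, ← WithZero.exp_add,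
        ← WithZero.exp_add, WithZero.exp_inj]
      omega

/-- **Leaf T6.18i.6b.4 (S4)**: `Nrd : D^× → k^×` takes a value of valuation `exp (-1)`. -/
theorem leafQuatUnif372 : LeafQuatUnif558 := by
  intro hQ k k' _ _ _ _ q e i s hD z hz0 hz δ₀ hδ
  have he := hD.ext.e_pos
  obtain ⟨hk, hk', hext⟩ := hD
  rcases Nat.lt_or_ge e 3 with h3 | h3
  · interval_cases e
    · rw [show (2 : ℕ) / 1 = 2 from rfl] at hk'
      exact quatUnif_unr372 hQ hk hk' hext z hz0 hz δ₀ hδ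
    · rw [show (2 : ℕ) / 2 = 1 from rfl, pow_one] at hk'
      exact quatUnif_ram372 hk' hext z δ₀ hδ
  · exfalso
    rw [Nat.div_eq_of_lt (by omega), pow_zero] at hk'
    exact not_isLocalField_one372 hk'

end Ext

end Fermat.Agent.LT.T6.H372

end
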